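import Mathlib
import Fermat.Agent.H50.EsC.Eigen

/-!
# S58 glue, modular side (helper28): the eigencharacter of a normalised eigenform

For a normalised eigenform `g` (prelude sense: relations between `q`-coefficients) of level `M`
and a set `S` of primes containing the primes of `M`, every element of
`CuspForm.heckeAlgebra M 2 S` acts on `g` by a scalar; this defines a ring homomorphism
`eigenChar : heckeAlgebra M 2 S →+* ℂ` with `eigenChar (T ℓ) = a_ℓ(g)`, whose values lie in every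
subring of `ℂ` containing the `a_ℓ(g)`, `ℓ ∉ S`.
-/

set_option autoImplicit false

open CongruenceSubgroup ModularFormClass

namespace Fermat.Agent.H28.S58

variable {M : ℕ} [NeZero M]

/-- Every element of the Hecke algebra away from the level acts on a normalised eigenform by a
scalar lying in any prescribed subring containing the good eigenvalues. -/
theorem exists_scalar_mem (R : Subring ℂ) (S : Set ℕ)
    (hMS : ∀ q : ℕ, q.Prime → q ∣ M → q ∈ S)
    (g : CuspForm (Gamma0 M) 2) (hg : g.IsNormalizedEigenform)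
    (hR : ∀ ℓ : ℕ, ℓ.Prime → ¬ ℓ ∣ M → ℓ ∉ S → qCoeff g ℓ ∈ R)
    (t : Module.End ℂ (CuspForm (Gamma0 M) 2)) (ht : t ∈ CuspForm.heckeAlgebra M 2 S) :
    ∃ c ∈ R, t g = c • g := by
  unfold CuspForm.heckeAlgebra at ht
  induction ht using Algebra.adjoin_induction with
  | mem x hx =>
    rcases hx with ⟨ℓ, hℓ, hℓM, hℓS, rfl⟩ | ⟨q, hqM, hq, hqS, rfl⟩
    · exact ⟨qCoeff g ℓ, hR ℓ hℓ hℓM hℓS,
        Fermat.Agent.H50.heckeTLin_eq_qCoeff_smul g hg hℓ hℓM⟩
    · exact absurd (hMS q hq hqM) hqS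
  | algebraMap r =>
    refine ⟨(r : ℂ), intCast_mem R r, ?_⟩
    rw [Algebra.algebraMap_eq_smul_one, LinearMap.smul_apply, Module.End.one_apply]
    exact (Int.cast_smul_eq_zsmul ℂ r g).symm
  | add x y _ _ hx hy =>
    obtain ⟨c, hc, hx⟩ := hx
    obtain ⟨d, hd, hy⟩ := hy
    exact ⟨c + d, R.add_mem hc hd, by rw [LinearMap.add_apply, hx, hy, add_smul]⟩
  | mul x y _ _ hx hy =>
    obtain ⟨c, hc, hx⟩ := hx
    obtain ⟨d, hd, hy⟩ := hy
    refine ⟨c * d, R.mul_mem hc hd, ?_⟩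
    rw [Module.End.mul_apply, hy, map_smul, hx, smul_smul, mul_comm]

omit [NeZero M] in
/-- Uniqueness of the scalar. -/
theorem scalar_unique {g : CuspForm (Gamma0 M) 2} (hg : g.IsNormalizedEigenform) {c d : ℂ}
    (h : c • g = d • g) : c = d := by
  have h0 : (c - d) • g = 0 := by rw [sub_smul, h, sub_self]
  rcases smul_eq_zero.mp h0 with h1 | h1
  · exact sub_eq_zero.mp h1
  · exact absurd h1 hg.ne_zero

/-- The scalar by which `t` acts on `g`. -/
noncomputable def eigenVal (S : Set ℕ) (hMS : ∀ q : ℕ, q.Prime → q ∣ M → q ∈ S)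
    (g : CuspForm (Gamma0 M) 2) (hg : g.IsNormalizedEigenform)
    (t : CuspForm.heckeAlgebra M 2 S) : ℂ :=
  Classical.choose (exists_scalar_mem ⊤ S hMS g hg (fun _ _ _ _ => Subring.mem_top _) t.1 t.2)

theorem eigenVal_spec (S : Set ℕ) (hMS : ∀ q : ℕ, q.Prime → q ∣ M → q ∈ S)
    (g : CuspForm (Gamma0 M) 2) (hg : g.IsNormalizedEigenform)
    (t : CuspForm.heckeAlgebra M 2 S) :
    (t : Module.End ℂ (CuspForm (Gamma0 M) 2)) g = eigenVal S hMS g hg t • g :=
  (Classical.choose_spec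
    (exists_scalar_mem ⊤ S hMS g hg (fun _ _ _ _ => Subring.mem_top _) t.1 t.2)).2

theorem eigenVal_eq (S : Set ℕ) (hMS : ∀ q : ℕ, q.Prime → q ∣ M → q ∈ S)
    (g : CuspForm (Gamma0 M) 2) (hg : g.IsNormalizedEigenform)
    (t : CuspForm.heckeAlgebra M 2 S) {c : ℂ}
    (h : (t : Module.End ℂ (CuspForm (Gamma0 M) 2)) g = c • g) :
    eigenVal S hMS g hg t = c :=
  scalar_unique hg ((eigenVal_spec S hMS g hg t).symm.trans h)

/-- **The eigencharacter** of a normalised eigenform on the Hecke algebra away from the level. -/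
noncomputable def eigenChar (S : Set ℕ) (hMS : ∀ q : ℕ, q.Prime → q ∣ M → q ∈ S)
    (g : CuspForm (Gamma0 M) 2) (hg : g.IsNormalizedEigenform) :
    CuspForm.heckeAlgebra M 2 S →+* ℂ where
  toFun := eigenVal S hMS g hg
  map_one' := eigenVal_eq S hMS g hg 1 (by
    rw [OneMemClass.coe_one, Module.End.one_apply, one_smul])
  map_mul' s t := eigenVal_eq S hMS g hg (s * t) (by
    rw [MulMemClass.coe_mul, Module.End.mul_apply, eigenVal_spec S hMS g hg t, map_smul,
      eigenVal_spec S hMS g hg s, smul_smul, mul_comm])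
  map_zero' := eigenVal_eq S hMS g hg 0 (by
    rw [ZeroMemClass.coe_zero, LinearMap.zero_apply, zero_smul])
  map_add' s t := eigenVal_eq S hMS g hg (s + t) (by
    rw [AddMemClass.coe_add, LinearMap.add_apply, eigenVal_spec S hMS g hg t,
      eigenVal_spec S hMS g hg s, add_smul])

theorem eigenChar_spec (S : Set ℕ) (hMS : ∀ q : ℕ, q.Prime → q ∣ M → q ∈ S)
    (g : CuspForm (Gamma0 M) 2) (hg : g.IsNormalizedEigenform)
    (t : CuspForm.heckeAlgebra M 2 S) :
    (t : Module.End ℂ (CuspForm (Gamma0 M) 2)) g = eigenChar S hMS g hg t • g :=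
  eigenVal_spec S hMS g hg t

theorem eigenChar_eq (S : Set ℕ) (hMS : ∀ q : ℕ, q.Prime → q ∣ M → q ∈ S)
    (g : CuspForm (Gamma0 M) 2) (hg : g.IsNormalizedEigenform)
    (t : CuspForm.heckeAlgebra M 2 S) {c : ℂ}
    (h : (t : Module.End ℂ (CuspForm (Gamma0 M) 2)) g = c • g) :
    eigenChar S hMS g hg t = c :=
  eigenVal_eq S hMS g hg t h

/-- `eigenChar (T ℓ) = a_ℓ(g)`. -/
theorem eigenChar_T (S : Set ℕ) (hMS : ∀ q : ℕ, q.Prime → q ∣ M → q ∈ S)
    (g : CuspForm (Gamma0 M) 2) (hg : g.IsNormalizedEigenform)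
    (ℓ : ℕ) (hℓ : ℓ.Prime) (hℓM : ¬ ℓ ∣ M) (hℓS : ℓ ∉ S) :
    eigenChar S hMS g hg (CuspForm.heckeAlgebra.T hℓ hℓM hℓS) = qCoeff g ℓ :=
  eigenChar_eq S hMS g hg _ (by
    rw [CuspForm.heckeAlgebra.coe_T]
    exact Fermat.Agent.H50.heckeTLin_eq_qCoeff_smul g hg hℓ hℓM)

/-- The values of the eigencharacter lie in every subring containing the good eigenvalues. -/
theorem eigenChar_mem (R : Subring ℂ) (S : Set ℕ)
    (hMS : ∀ q : ℕ, q.Prime → q ∣ M → q ∈ S)
    (g : CuspForm (Gamma0 M) 2) (hg : g.IsNormalizedEigenform)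
    (hR : ∀ ℓ : ℕ, ℓ.Prime → ¬ ℓ ∣ M → ℓ ∉ S → qCoeff g ℓ ∈ R)
    (t : CuspForm.heckeAlgebra M 2 S) : eigenChar S hMS g hg t ∈ R := by
  obtain ⟨c, hc, h⟩ := exists_scalar_mem R S hMS g hg hR t.1 t.2
  rw [eigenChar_eq S hMS g hg t h]
  exact hc

/-- The range of the eigencharacter is contained in every subring containing the good
eigenvalues. -/
theorem eigenChar_range_le (R : Subring ℂ) (S : Set ℕ)
    (hMS : ∀ q : ℕ, q.Prime → q ∣ M → q ∈ S)
    (g : CuspForm (Gamma0 M) 2) (hg : g.IsNormalizedEigenform)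
    (hR : ∀ ℓ : ℕ, ℓ.Prime → ¬ ℓ ∣ M → ℓ ∉ S → qCoeff g ℓ ∈ R) :
    (eigenChar S hMS g hg).range ≤ R := by
  rintro _ ⟨t, rfl⟩
  exact eigenChar_mem R S hMS g hg hR t

end Fermat.Agent.H28.S58
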