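import Mathlib

/-!
# S58 glue (helper28): Schur + Hensel

For an algebraic integer `α ∈ ℂ` and every bound `B` there is a prime `lam > B` and a
`ℤ`-algebra homomorphism `ℤ[α] →ₐ[ℤ] ℤ_[lam]`; if the image of `α` is a rational integer `n`,
then `α = n`.
-/

set_option autoImplicit false

open Polynomial

namespace Fermat.Agent.H28.S58

/-- **Schur.** A nonconstant integer polynomial has roots modulo arbitrarily large primes. -/
theorem exists_prime_gt_dvd_eval (P : ℤ[X]) (hP : 0 < P.natDegree) (B : ℕ) :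
    ∃ lam : ℕ, lam.Prime ∧ B < lam ∧ ∃ n : ℤ, (lam : ℤ) ∣ P.eval n := by
  set c : ℤ := P.eval 0 with hc
  by_cases hc0 : c = 0
  · obtain ⟨lam, hBl, hlam⟩ := Nat.exists_infinite_primes (B + 1)
    exact ⟨lam, hlam, by omega, 0, by rw [← hc, hc0]; exact dvd_zero _⟩
  set m : ℤ := (B.factorial : ℤ) with hm
  have hm0 : m ≠ 0 := Int.natCast_ne_zero.mpr (Nat.factorial_ne_zero B)
  have hne : ∀ e : ℤ, P - C e ≠ 0 := by
    intro e h
    have h1 : P = C e := sub_eq_zero.mp h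
    rw [h1, natDegree_C] at hP
    exact lt_irrefl _ hP
  have hfin : ({x : ℤ | P.eval x = c} ∪ {x : ℤ | P.eval x = -c}).Finite := by
    refine Set.Finite.union ?_ ?_
    · refine Set.Finite.subset (Polynomial.finite_setOfPred_isRoot (hne c)) ?_
      intro x hx
      simp only [Set.mem_ofPred_eq] at hx ⊢
      rw [IsRoot, eval_sub, eval_C, hx, sub_self]
    · refine Set.Finite.subset (Polynomial.finite_setOfPred_isRoot (hne (-c))) ?_
      intro x hx
      simp only [Set.mem_ofPred_eq] at hx ⊢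
      rw [IsRoot, eval_sub, eval_C, hx, sub_self]
  have hinf : (Set.range fun t : ℤ => c * m * t).Infinite :=
    Set.infinite_range_of_injective (mul_right_injective₀ (mul_ne_zero hc0 hm0))
  obtain ⟨x, ⟨t, rfl⟩, hx⟩ := hinf.exists_notMem_finite hfin
  simp only [Set.mem_union, Set.mem_ofPred_eq, not_or] at hx
  obtain ⟨hx1, hx2⟩ := hx
  obtain ⟨k, hk⟩ := Polynomial.sub_dvd_eval_sub (c * m * t) 0 P
  rw [← hc, sub_zero] at hk
  have hval : P.eval (c * m * t) = c * (1 + m * t * k) := by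
    have : P.eval (c * m * t) = c + c * m * t * k := by rw [← hk]; ring
    rw [this]; ring
  set v : ℤ := 1 + m * t * k with hv
  by_cases hv0 : v = 0
  · obtain ⟨lam, hBl, hlam⟩ := Nat.exists_infinite_primes (B + 1)
    exact ⟨lam, hlam, by omega, c * m * t, by rw [hval, hv0, mul_zero]; exact dvd_zero _⟩
  have hv1 : v.natAbs ≠ 1 := by
    intro h
    rcases Int.natAbs_eq_iff.mp h with h1 | h1
    · exact hx1 (by rw [hval, h1]; simp)
    · exact hx2 (by rw [hval, h1]; simp)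
  obtain ⟨lam, hlam, hdvd⟩ := Nat.exists_prime_and_dvd hv1
  have hdvd' : (lam : ℤ) ∣ v := Int.natCast_dvd.mpr hdvd
  refine ⟨lam, hlam, ?_, c * m * t, by rw [hval]; exact Dvd.dvd.mul_left hdvd' c⟩
  by_contra hle
  have hle' : lam ≤ B := not_lt.mp hle
  have h1 : (lam : ℤ) ∣ m := by
    rw [hm]
    exact Int.natCast_dvd_natCast.mpr ((Nat.Prime.dvd_factorial hlam).mpr hle')
  have h2 : (lam : ℤ) ∣ 1 := by
    have h3 : (lam : ℤ) ∣ m * t * k := Dvd.dvd.mul_right (Dvd.dvd.mul_right h1 t) k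
    have h4 : (1 : ℤ) = v - m * t * k := by rw [hv]; ring
    rw [h4]
    exact dvd_sub hdvd' h3
  have h5 : lam ∣ 1 := Int.natCast_dvd_natCast.mp (by simpa using h2)
  exact hlam.one_lt.ne' (Nat.dvd_one.mp h5)

/-- **Bezout over `ℤ`** for a polynomial that is separable over `ℚ`. -/
theorem exists_bezout_of_separable (P : ℤ[X])
    (hsep : (P.map (algebraMap ℤ ℚ)).Separable) :
    ∃ (A B : ℤ[X]) (d : ℤ), d ≠ 0 ∧ A * P + B * derivative P = C d := by
  obtain ⟨u, v, huv⟩ := hsep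
  obtain ⟨b₁, hb₁, h₁⟩ := IsLocalization.integerNormalization_spec (nonZeroDivisors ℤ) u
  obtain ⟨b₂, hb₂, h₂⟩ := IsLocalization.integerNormalization_spec (nonZeroDivisors ℤ) v
  refine ⟨C b₂ * IsLocalization.integerNormalization (nonZeroDivisors ℤ) u,
    C b₁ * IsLocalization.integerNormalization (nonZeroDivisors ℤ) v, b₁ * b₂,
    mul_ne_zero (nonZeroDivisors.ne_zero hb₁) (nonZeroDivisors.ne_zero hb₂), ?_⟩
  apply Polynomial.map_injective (algebraMap ℤ ℚ) (algebraMap ℤ ℚ).injective_int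
  rw [Polynomial.map_add, Polynomial.map_mul, Polynomial.map_mul, Polynomial.map_mul,
    Polynomial.map_mul, h₁, h₂, Polynomial.map_C, Polynomial.map_C, Polynomial.map_C,
    ← derivative_map]
  have e1 : ∀ (b : ℤ) (w : ℚ[X]), b • w = C (algebraMap ℤ ℚ b) * w := by
    intro b w
    rw [← Polynomial.smul_eq_C_mul, algebraMap_smul]
  rw [e1, e1, map_mul, C_mul]
  linear_combination (C ((algebraMap ℤ ℚ) b₁) * C ((algebraMap ℤ ℚ) b₂)) * huv

/-- **Hensel.** A root modulo `lam` of `P`, for `lam` prime to the Bezout constant, lifts to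
`ℤ_[lam]`. -/
theorem exists_padic_root (P A B : ℤ[X]) (d : ℤ) (hAB : A * P + B * derivative P = C d)
    (lam : ℕ) [Fact lam.Prime] (hd : ¬ (lam : ℤ) ∣ d) (n : ℤ) (hn : (lam : ℤ) ∣ P.eval n) :
    ∃ z : ℤ_[lam], aeval z P = 0 := by
  have hev : ∀ Q : ℤ[X], aeval ((n : ℤ) : ℤ_[lam]) Q = ((Q.eval n : ℤ) : ℤ_[lam]) := by
    intro Q
    rw [← Polynomial.eval_map_algebraMap, algebraMap_int_eq, Polynomial.eval_intCast_map]
    rfl
  have h1 : ‖aeval ((n : ℤ) : ℤ_[lam]) P‖ < 1 := by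
    rw [hev, PadicInt.norm_int_lt_one_iff_dvd]
    exact hn
  have h2 : ‖aeval ((n : ℤ) : ℤ_[lam]) (derivative P)‖ = 1 := by
    rw [hev]
    refine le_antisymm (PadicInt.norm_le_one _) (not_lt.mp ?_)
    rw [PadicInt.norm_int_lt_one_iff_dvd]
    intro h3
    apply hd
    have h4 := congrArg (Polynomial.eval n) hAB
    rw [eval_add, eval_mul, eval_mul, eval_C] at h4
    rw [← h4]
    exact dvd_add (Dvd.dvd.mul_left hn _) (Dvd.dvd.mul_left h3 _)
  obtain ⟨z, hz, -⟩ := hensels_lemma (F := P) (a := ((n : ℤ) : ℤ_[lam]))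
    (by rw [h2, one_pow]; exact h1)
  exact ⟨z, hz⟩

/-- The minimal polynomial over `ℤ` of an algebraic integer has a root in `ℤ_[lam]` for
arbitrarily large primes `lam`. -/
theorem exists_prime_gt_padic_root (α : ℂ) (hα : IsIntegral ℤ α) (B : ℕ) :
    ∃ lam : ℕ, lam.Prime ∧ B < lam ∧ ∀ [Fact lam.Prime],
      ∃ z : ℤ_[lam], aeval z (minpoly ℤ α) = 0 := by
  have hirr : Irreducible ((minpoly ℤ α).map (algebraMap ℤ ℚ)) := by
    rw [← minpoly.isIntegrallyClosed_eq_field_fractions' ℚ hα]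
    exact minpoly.irreducible (hα.tower_top)
  obtain ⟨A, B', d, hd, hAB⟩ := exists_bezout_of_separable (minpoly ℤ α) hirr.separable
  obtain ⟨lam, hlam, hBl, n, hn⟩ := exists_prime_gt_dvd_eval (minpoly ℤ α)
    (minpoly.natDegree_pos hα) (max B d.natAbs)
  refine ⟨lam, hlam, lt_of_le_of_lt (le_max_left _ _) hBl, ?_⟩
  intro _
  refine exists_padic_root (minpoly ℤ α) A B' d hAB lam ?_ n hn
  intro hdvd
  have h1 : lam ≤ d.natAbs :=
    Nat.le_of_dvd (Int.natAbs_pos.mpr hd) (Int.natCast_dvd.mp hdvd)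
  exact absurd (lt_of_le_of_lt (le_max_right _ _) hBl) (not_lt.mpr h1)

/-- The homomorphism `ℤ[α] → ℤ_[lam]` attached to a root of the minimal polynomial. -/
noncomputable def adjoinToPadic (α : ℂ) (hα : IsIntegral ℤ α) (lam : ℕ) [Fact lam.Prime]
    (z : ℤ_[lam]) (hz : aeval z (minpoly ℤ α) = 0) :
    Algebra.adjoin ℤ ({α} : Set ℂ) →ₐ[ℤ] ℤ_[lam] :=
  (AdjoinRoot.liftAlgHom (minpoly ℤ α) (Algebra.ofId ℤ ℤ_[lam]) z hz).comp
    (minpoly.equivAdjoin hα).symm.toAlgHom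

theorem adjoinToPadic_self (α : ℂ) (hα : IsIntegral ℤ α) (lam : ℕ) [Fact lam.Prime]
    (z : ℤ_[lam]) (hz : aeval z (minpoly ℤ α) = 0) :
    adjoinToPadic α hα lam z hz ⟨α, Algebra.self_mem_adjoin_singleton ℤ α⟩ = z := by
  have h1 : (minpoly.equivAdjoin hα).symm ⟨α, Algebra.self_mem_adjoin_singleton ℤ α⟩ =
      AdjoinRoot.root (minpoly ℤ α) := by
    rw [AlgEquiv.symm_apply_eq, minpoly.coe_equivAdjoin]
    exact Subtype.ext (AdjoinRoot.Minpoly.coe_toAdjoin_mk_X (R := ℤ) (x := α)).symm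
  unfold adjoinToPadic
  rw [AlgHom.comp_apply]
  change AdjoinRoot.liftAlgHom (minpoly ℤ α) (Algebra.ofId ℤ ℤ_[lam]) z hz
    ((minpoly.equivAdjoin hα).symm ⟨α, Algebra.self_mem_adjoin_singleton ℤ α⟩) = z
  rw [h1]
  exact AdjoinRoot.liftAlgHom_root (minpoly ℤ α) (Algebra.ofId ℤ ℤ_[lam]) z _

/-- An algebraic integer whose minimal polynomial has the rational integer root `n` in a ring
of characteristic zero is equal to `n`. -/
theorem eq_intCast_of_minpoly_root (α : ℂ) (hα : IsIntegral ℤ α) (n : ℤ)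
    (h : (minpoly ℤ α).eval n = 0) : α = (n : ℂ) := by
  have hdvd : (X - C n) ∣ minpoly ℤ α := dvd_iff_isRoot.mpr h
  obtain ⟨Q, hQ⟩ := hdvd
  have hirr := minpoly.irreducible hα
  have hQu : IsUnit Q := by
    rcases hirr.isUnit_or_isUnit hQ with h1 | h1
    · exact absurd h1 (Polynomial.not_isUnit_X_sub_C n)
    · exact h1
  have h0 : aeval α (minpoly ℤ α) = 0 := minpoly.aeval ℤ α
  rw [hQ, map_mul] at h0
  have hQα : aeval α Q ≠ 0 := (hQu.map (aeval α)).ne_zero
  rcases mul_eq_zero.mp h0 with h1 | h1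
  · rw [map_sub, aeval_X, aeval_C] at h1
    rw [sub_eq_zero.mp h1]
    simp
  · exact absurd h1 hQα

/-- If the image of `α` in `ℤ_[lam]` is a rational integer `n`, then `α = n`. -/
theorem eq_intCast_of_padic_root (α : ℂ) (hα : IsIntegral ℤ α) (lam : ℕ) [Fact lam.Prime]
    (n : ℤ) (hz : aeval ((n : ℤ) : ℤ_[lam]) (minpoly ℤ α) = 0) : α = (n : ℂ) := by
  apply eq_intCast_of_minpoly_root α hα n
  have h1 : aeval ((n : ℤ) : ℤ_[lam]) (minpoly ℤ α) = (((minpoly ℤ α).eval n : ℤ) : ℤ_[lam]) := by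
    rw [← Polynomial.eval_map_algebraMap, algebraMap_int_eq, Polynomial.eval_intCast_map]
    rfl
  rw [h1] at hz
  exact_mod_cast hz

end Fermat.Agent.H28.S58
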