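import Mathlib
import Fermat.Agent.H51.S58.Interfaces
import Fermat.Agent.H28.S58.EigenChar
import Fermat.Agent.H28.S58.SchurHensel

/-!
# S58 glue (helper28): the blocks EIG and EMB in the exact shapes of
`Fermat.Agent.H51.S58.Interfaces`

* `eigenCharStatement : Fermat.Agent.H51.S58.EigenCharStatement`  (row S58-EIG)
* `padicEmbeddingStatement : Fermat.Agent.H51.S58.PadicEmbeddingStatement`  (row S58-EMB)
-/

set_option autoImplicit false

open CongruenceSubgroup ModularFormClass Polynomial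

namespace Fermat.Agent.H28.S58

/-- **S58-EIG.** -/
theorem eigenCharStatement : Fermat.Agent.H51.S58.EigenCharStatement := by
  intro M _ g hg S hMS
  have hMS' : ∀ q : ℕ, q.Prime → q ∣ M → q ∈ (↑S : Set ℕ) := fun q hq hqM =>
    Finset.mem_coe.mpr (hMS q hq hqM)
  refine ⟨eigenChar (↑S : Set ℕ) hMS' g hg,
    fun ℓ hℓ hℓM hℓS => eigenChar_T (↑S : Set ℕ) hMS' g hg ℓ hℓ hℓM hℓS, ?_⟩
  intro B hB
  exact eigenChar_range_le B (↑S : Set ℕ) hMS' g hg
    (fun ℓ hℓ hℓM hℓS => hB ℓ hℓ hℓM (fun h => hℓS (Finset.mem_coe.mpr h)))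

/-- **S58-EMB.** -/
theorem padicEmbeddingStatement : Fermat.Agent.H51.S58.PadicEmbeddingStatement := by
  intro θ hθ F
  obtain ⟨lam, hlam, hBl, hz⟩ := exists_prime_gt_padic_root θ hθ (F.sup id)
  have hfact : Fact lam.Prime := ⟨hlam⟩
  obtain ⟨z, hz⟩ := hz
  have hF : lam ∉ F := by
    intro h
    have h1 : lam ≤ F.sup id := Finset.le_sup (f := id) h
    omega
  have hle : ∀ x : Subring.closure ({θ} : Set ℂ),
      (Subring.closure ({θ} : Set ℂ)).subtype x ∈ Algebra.adjoin ℤ ({θ} : Set ℂ) := by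
    intro x
    have h : Subring.closure ({θ} : Set ℂ) ≤ (Algebra.adjoin ℤ ({θ} : Set ℂ)).toSubring :=
      Subring.closure_le.mpr (Set.singleton_subset_iff.mpr
        (Algebra.self_mem_adjoin_singleton ℤ θ))
    exact h x.2
  refine ⟨lam, hfact, hF,
    ((adjoinToPadic θ hθ lam z hz : Algebra.adjoin ℤ ({θ} : Set ℂ) →+* ℤ_[lam])).comp
      (RingHom.codRestrict (Subring.closure ({θ} : Set ℂ)).subtype
        (Algebra.adjoin ℤ ({θ} : Set ℂ)) hle), ?_⟩
  intro a ha
  have h1 : (RingHom.codRestrict (Subring.closure ({θ} : Set ℂ)).subtype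
      (Algebra.adjoin ℤ ({θ} : Set ℂ)) hle)
      ⟨θ, Subring.subset_closure (Set.mem_singleton θ)⟩ =
      ⟨θ, Algebra.self_mem_adjoin_singleton ℤ θ⟩ := Subtype.ext rfl
  rw [RingHom.comp_apply, h1] at ha
  have h2 : z = ((a : ℤ) : ℤ_[lam]) := by
    rw [← ha]
    exact (adjoinToPadic_self θ hθ lam z hz).symm
  rw [h2] at hz
  exact eq_intCast_of_padic_root θ hθ lam a hz

end Fermat.Agent.H28.S58
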