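import Mathlib
import Fermat.Agent.H51.S58.FrobRel
import Fermat.Agent.H62.Cheb2.Existence
import Fermat.Agent.H53.ES.CycloFrob
import Fermat.Agent.H14.S34Assembly

/-!
# S58 glue (helper28, backup seat of row S58-CMP): the comparison statement

`compare (hFin : TorsionFiniteLevelStatement) : CompareStatement`: let `ρ` be a `lam`-adic
representation whose Frobenius characteristic polynomials outside a finite set `S` are
`X² - a_ℓ(W) X + ℓ`.  Then for every `g ∈ G_ℚ` and every `k` there are integers `t`, `d`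
congruent to the trace and the determinant of `ρ g` modulo `lam ^ k` such that `g ζ = ζ ^ d` on
the `lam ^ k`-th roots of unity and `g² - t g + d = 0` on `E[lam ^ k]`.

Proof: by Chebotarev (`Fermat.Agent.H62.Cheb2.Existence.chebotarevFull`) `g` agrees with a Frobenius
element `τ` at a good prime `ℓ ≥ 5`, `ℓ ∉ S`, `ℓ ≠ lam`, on a finite extension over which
`E[lam ^ k]`, `μ_{lam ^ k}` and `ρ mod lam ^ k` are defined; take `t = a_ℓ(W)`, `d = ℓ`.
-/

set_option autoImplicit false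

open Polynomial IsLocalRing WeierstrassCurve WeierstrassCurve.Affine

namespace Fermat.Agent.H28.S58

open Fermat.Agent.H51.S58

/-- Trace and determinant from a quadratic characteristic polynomial in rank two. -/
theorem cmp_trace_det_of_charpoly {A : Type*} [CommRing A] [Nontrivial A] {V : Type*}
    [AddCommGroup V] [Module A V] [Module.Free A V] [Module.Finite A V]
    (hrank : Module.finrank A V = 2) (f : Module.End A V) (a d : A)
    (h : f.charpoly = X ^ 2 - C a * X + C d) :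
    LinearMap.trace A V f = a ∧ LinearMap.det f = d := by
  have h1 := Fermat.Agent.H14.s34_charpoly_eq hrank f
  rw [h] at h1
  constructor
  · have h2 := congrArg (fun p : A[X] => p.coeff 1) h1
    simp only [coeff_add, coeff_sub, coeff_X_pow, coeff_C_mul, coeff_X_one, coeff_C] at h2
    norm_num at h2
    exact h2.symm
  · have h2 := congrArg (fun p : A[X] => p.coeff 0) h1
    simpa [Polynomial.coeff_X_pow, Polynomial.coeff_C_mul] using h2.symm

/-- A finite extension of `ℚ` containing the `n`-th roots of unity. -/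
theorem cmp_exists_level_rootsOfUnity (n : ℕ) (hn : 0 < n) :
    ∃ L : IntermediateField ℚ (AlgebraicClosure ℚ), FiniteDimensional ℚ L ∧
      ∀ ζ : AlgebraicClosure ℚ, ζ ^ n = 1 → ζ ∈ L := by
  have hne : (X ^ n - C 1 : (AlgebraicClosure ℚ)[X]) ≠ 0 := Polynomial.X_pow_sub_C_ne_zero hn 1
  have hfin : {ζ : AlgebraicClosure ℚ | ζ ^ n = 1}.Finite := by
    refine (Polynomial.finite_setOfPred_isRoot hne).subset ?_
    intro ζ hζ
    have hζ' : ζ ^ n = 1 := hζ
    show IsRoot _ ζ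
    rw [IsRoot, eval_sub, eval_pow, eval_X, eval_C, hζ', sub_self]
  have : Finite {ζ : AlgebraicClosure ℚ | ζ ^ n = 1} := hfin.to_subtype
  refine ⟨IntermediateField.adjoin ℚ {ζ : AlgebraicClosure ℚ | ζ ^ n = 1},
    IntermediateField.finiteDimensional_adjoin
      (fun x _ => ((AlgebraicClosure.isAlgebraic ℚ).isAlgebraic x).isIntegral),
    fun ζ hζ => IntermediateField.subset_adjoin ℚ _ hζ⟩

/-- In a discrete valuation ring, a nonzero principal ideal contains a power of the maximal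
ideal. -/
theorem cmp_exists_pow_le {O : Type*} [CommRing O] [IsDomain O] [IsDiscreteValuationRing O]
    (x : O) (hx : x ≠ 0) : ∃ j : ℕ, maximalIdeal O ^ j ≤ Ideal.span {x} := by
  obtain ⟨ϖ, hϖ⟩ := IsDiscreteValuationRing.exists_irreducible O
  have hs : Ideal.span {x} ≠ ⊥ := by
    rw [Ne, Ideal.span_singleton_eq_bot]
    exact hx
  obtain ⟨j, hj⟩ := IsDiscreteValuationRing.ideal_eq_span_pow_irreducible hs hϖ
  refine ⟨j, ?_⟩
  rw [hj, hϖ.maximalIdeal_eq, Ideal.span_singleton_pow]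

/-- **S58-CMP.** -/
theorem compare (hFin : TorsionFiniteLevelStatement) : CompareStatement := by
  intro W hΔ lam _ hlam2 O _ _ _ _ hlamO ρ S hρ g k
  have hlam : lam.Prime := Fact.out
  have hn : 0 < lam ^ k := pow_pos hlam.pos k
  -- the three level fields
  obtain ⟨L₁, hL₁fin, hL₁⟩ := cmp_exists_level_rootsOfUnity (lam ^ k) hn
  obtain ⟨L₃, hL₃fin, hL₃⟩ := hFin W hΔ (lam ^ k) hn
  have hx0 : ((lam ^ k : ℕ) : O) ≠ 0 := Nat.cast_ne_zero.mpr hn.ne'
  obtain ⟨j, hj⟩ := cmp_exists_pow_le ((lam ^ k : ℕ) : O) hx0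
  obtain ⟨L₂, hL₂fin, hL₂⟩ := ρ.isAdicContinuous j
  set L : IntermediateField ℚ (AlgebraicClosure ℚ) := L₁ ⊔ L₂ ⊔ L₃ with hL
  have hLfin : FiniteDimensional ℚ L := by
    have h12 : FiniteDimensional ℚ (L₁ ⊔ L₂ : IntermediateField ℚ (AlgebraicClosure ℚ)) :=
      IntermediateField.finiteDimensional_sup L₁ L₂
    exact IntermediateField.finiteDimensional_sup (L₁ ⊔ L₂) L₃
  have hL₁L : L₁ ≤ L := le_sup_of_le_left le_sup_left
  have hL₂L : L₂ ≤ L := le_sup_of_le_left le_sup_right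
  have hL₃L : L₃ ≤ L := le_sup_right
  -- Chebotarev
  set T : Finset ℕ := S ∪ {lam, 2, 3} ∪ W.Δ.natAbs.primeFactors with hT
  obtain ⟨ℓ, hℓ, hℓT, A, hA, -, τ, hτ, hτg⟩ := Fermat.Agent.H62.Cheb2.Existence.chebotarevFull L g T
  have hℓS : ℓ ∉ S := fun h => hℓT (by rw [hT]; simp [h])
  have hℓlam : ℓ ≠ lam := fun h => hℓT (by rw [hT]; simp [h])
  have hℓ2 : ℓ ≠ 2 := fun h => hℓT (by rw [hT]; simp [h])
  have hℓ3 : ℓ ≠ 3 := fun h => hℓT (by rw [hT]; simp [h])
  have hℓΔ : ¬ (ℓ : ℤ) ∣ W.Δ := by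
    intro h
    apply hℓT
    rw [hT]
    refine Finset.mem_union_right _ ?_
    rw [Nat.mem_primeFactors]
    exact ⟨hℓ, Int.natCast_dvd.mp h, Int.natAbs_ne_zero.mpr hΔ⟩
  have hℓ5 : 5 ≤ ℓ := by
    have h2 := hℓ.two_le
    by_contra hlt
    have h4 : ℓ = 4 := by omega
    rw [h4] at hℓ
    exact absurd hℓ (by norm_num)
  -- the Frobenius data at `τ`
  have hcp := hρ ℓ hℓ hℓS A hA τ hτ
  obtain ⟨htr, hdet⟩ := cmp_trace_det_of_charpoly ρ.finrank_eq (ρ.ρ τ) _ _ hcp
  have hLρ : ∀ σ : GQ, (∀ x ∈ L, σ x = x) →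
      ∀ v : ρ.V, ρ.ρ σ v - v ∈ (maximalIdeal O ^ j) • (⊤ : Submodule O ρ.V) :=
    fun σ hσ v => hL₂ σ (fun x hx => hσ x (hL₂L hx)) v
  refine ⟨W.apOfModel ℓ, ℓ, ?_, ?_, ?_, ?_⟩
  · have h := Fermat.Agent.H14.s31_trace_sub_mem ρ j L hLρ τ g hτg
    rw [htr] at h
    exact hj h
  · have h := Fermat.Agent.H14.s34_det_sub_mem ρ j L hLρ τ g hτg
    rw [hdet] at h
    exact hj h
  · intro ζ hζ
    rw [← hτg ζ (hL₁L (hL₁ ζ hζ))]
    exact Fermat.Agent.H53.IsFrobeniusAt.apply_rootOfUnity hτ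
      (Fermat.Agent.H53.natCast_pow_not_mem_nonunits hℓ hlam hℓlam A hA k) hζ
  · intro P hP
    have hfix : ∀ Q : EPt W, (lam ^ k) • Q = 0 → g • Q = τ • Q := by
      intro Q hQ
      have h1 : (τ⁻¹ * g) • Q = Q := by
        apply hL₃ (τ⁻¹ * g) _ Q hQ
        intro x hx
        rw [AlgEquiv.mul_apply, ← hτg x (hL₃L hx), ← AlgEquiv.mul_apply, inv_mul_cancel,
          AlgEquiv.one_apply]
      rw [mul_smul] at h1
      calc g • Q = τ • (τ⁻¹ • (g • Q)) := by rw [smul_inv_smul]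
        _ = τ • Q := by rw [h1]
    have hgP : (lam ^ k) • (g • P) = 0 := by
      have h1 : ((lam ^ k : ℕ) : ℤ) • (g • P) = 0 := by
        rw [← Point.algEquiv_smul_zsmul, natCast_zsmul, hP, smul_zero]
      rwa [natCast_zsmul] at h1
    rw [hfix (g • P) hgP, hfix P hP]
    have hodd : Odd (lam ^ k) := (hlam.eq_two_or_odd'.resolve_left hlam2).pow
    have hndvd : ¬ ℓ ∣ lam ^ k := by
      intro h
      exact hℓlam ((Nat.prime_dvd_prime_iff_eq hℓ hlam).mp (hℓ.dvd_of_dvd_pow h))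
    exact frobeniusRelation_of_five_le W ℓ hℓ hℓ5 hℓΔ A hA τ hτ (lam ^ k) hodd hndvd P hP

end Fermat.Agent.H28.S58
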