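import Mathlib
import Fermat.Agent.H28.S58.EigenChar
import Fermat.Prelude.Def_CuspForm_HeckeGaloisRepDatum
import Fermat.Prelude.Def_CuspForm_Newforms
import Fermat.Prelude.Def_GaloisRep_LocalConditions
import Fermat.Prelude.Def_GaloisRep_Residual

/-!
# S58 glue, modular side (helper28): the frozen statements S35 / S36 for a newform with
integral good eigenvalues, with coefficient ring `ℤ_[lam]`

* `S35Statement`, `S36Statement` : the frozen statements S35 and S36, verbatim, as `Prop`s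
  (so that `@Fermat.Agent.S35.result : S35Statement`, `@Fermat.Agent.S36.result : S36Statement`).
* `modSide35`, `modSide36` : for a newform `g` of level `M` whose eigenvalues `a_ℓ(g)`, `ℓ ∉ S`,
  are the integers `a ℓ`, the `λ`-adic representations of S35 / S36 with Frobenius
  characteristic polynomials `X² - a_ℓ X + ℓ` (integer coefficients).
-/

set_option autoImplicit false

open CongruenceSubgroup ModularFormClass Polynomial

namespace Fermat.Agent.H28.S58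

/-- The frozen statement S35, verbatim. -/
def S35Statement : Prop :=
  ∀ {M : ℕ} [NeZero M] {g : CuspForm (CongruenceSubgroup.Gamma0 M) 2} (_ : g.IsNewform)
    (lam : ℕ) [Fact lam.Prime]
    (S : Finset ℕ)
    (O' : Type) [CommRing O'] [IsDomain O'] [IsDiscreteValuationRing O']
    [IsAdicComplete (IsLocalRing.maximalIdeal O') O'] [Finite (IsLocalRing.ResidueField O')]
    [CharZero O'] (_ : (lam : O') ∈ IsLocalRing.maximalIdeal O')
    (chig : CuspForm.heckeAlgebra M 2 (↑S : Set ℕ) →+* ℂ)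
    (_ : ∀ (ℓ : ℕ) (hℓ : ℓ.Prime) (hℓM : ¬ ℓ ∣ M) (hℓS : ℓ ∉ (↑S : Set ℕ)),
      chig (CuspForm.heckeAlgebra.T hℓ hℓM hℓS) = ModularFormClass.qCoeff g ℓ)
    (iota : chig.range →+* O')
    (_ : lam ∈ S) (_ : ∀ q : ℕ, q.Prime → q ∣ M → q ∈ S),
    ∃ (O'' : Type) (_ : CommRing O'') (_ : IsDomain O'') (_ : IsDiscreteValuationRing O'')
      (_ : IsAdicComplete (IsLocalRing.maximalIdeal O'') O'')
      (_ : Finite (IsLocalRing.ResidueField O''))
      (_ : CharZero O'') (_ : Algebra O' O'') (_ : Module.Finite O' O'')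
      (_ : IsLocalHom (algebraMap O' O'')),
      Function.Injective (algebraMap O' O'') ∧
      ∃ ρ : GaloisRepAdic O'',
        (∀ (ℓ : ℕ) (hℓ : ℓ.Prime) (hℓM : ¬ ℓ ∣ M) (hℓS : ℓ ∉ (↑S : Set ℕ)),
          ∀ A : ValuationSubring (AlgebraicClosure ℚ), A.LiesOverPrime ℓ →
            ∀ σ : AlgebraicClosure ℚ ≃ₐ[ℚ] AlgebraicClosure ℚ, A.IsFrobeniusAt σ ℓ →
              LinearMap.charpoly (ρ.ρ σ) =
                X ^ 2 - C (algebraMap O' O'' ((iota.comp chig.rangeRestrict)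
                  (CuspForm.heckeAlgebra.T hℓ hℓM hℓS))) * X
                  + C ((ℓ : O''))) ∧
        (∀ q : ℕ, q.Prime → q ≠ lam → q ∣ M → ¬ q ^ 2 ∣ M →
          ∀ A : ValuationSubring (AlgebraicClosure ℚ), A.LiesOverPrime q →
            ∀ σ : AlgebraicClosure ℚ ≃ₐ[ℚ] AlgebraicClosure ℚ, A.IsFrobeniusAt σ q →
              LinearMap.charpoly (ρ.ρ σ) = X ^ 2 - C ((q : O'') + 1) * X + C ((q : O'')) ∨
              LinearMap.charpoly (ρ.ρ σ) = X ^ 2 + C ((q : O'') + 1) * X + C ((q : O'')))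

/-- The frozen statement S36, verbatim. -/
def S36Statement : Prop :=
  ∀ {M : ℕ} [NeZero M] {g : CuspForm (CongruenceSubgroup.Gamma0 M) 2} (_ : g.IsNewform)
    (lam : ℕ) [Fact lam.Prime]
    (S : Finset ℕ)
    (O' : Type) [CommRing O'] [IsDomain O'] [IsDiscreteValuationRing O']
    [IsAdicComplete (IsLocalRing.maximalIdeal O') O'] [Finite (IsLocalRing.ResidueField O')]
    [CharZero O'] (_ : (lam : O') ∈ IsLocalRing.maximalIdeal O')
    (_ : lam ≠ 2)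
    (chig : CuspForm.heckeAlgebra M 2 (↑S : Set ℕ) →+* ℂ)
    (_ : ∀ (ℓ : ℕ) (hℓ : ℓ.Prime) (hℓM : ¬ ℓ ∣ M) (hℓS : ℓ ∉ (↑S : Set ℕ)),
      chig (CuspForm.heckeAlgebra.T hℓ hℓM hℓS) = ModularFormClass.qCoeff g ℓ)
    (iota : chig.range →+* O')
    (_ : lam ∈ S) (_ : ∀ q : ℕ, q.Prime → q ∣ M → q ∈ S)
    (_ : ∀ (O'' : Type) [CommRing O''] [IsDomain O''] [IsDiscreteValuationRing O'']
      [IsAdicComplete (IsLocalRing.maximalIdeal O'') O'']
      [Finite (IsLocalRing.ResidueField O'')] [CharZero O'']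
      [Algebra O' O''] [Module.Finite O' O''] [IsLocalHom (algebraMap O' O'')],
      Function.Injective (algebraMap O' O'') → ∀ (ρ : GaloisRepAdic O''),
      (∀ (ℓ : ℕ) (hℓ : ℓ.Prime) (_ : ℓ ≠ lam) (hℓM : ¬ ℓ ∣ M) (hℓS : ℓ ∉ (↑S : Set ℕ)),
        ∀ A : ValuationSubring (AlgebraicClosure ℚ), A.LiesOverPrime ℓ →
          ∀ σ : AlgebraicClosure ℚ ≃ₐ[ℚ] AlgebraicClosure ℚ, A.IsFrobeniusAt σ ℓ →
            LinearMap.charpoly (ρ.ρ σ) =
              X ^ 2 - C (algebraMap O' O'' ((iota.comp chig.rangeRestrict)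
                (CuspForm.heckeAlgebra.T hℓ hℓM hℓS))) * X
                + C ((ℓ : O'')))
      → ρ.residual.IsAbsolutelyIrreducible ∧ ρ.residual.IsOdd),
    ∃ (O'' : Type) (_ : CommRing O'') (_ : IsDomain O'') (_ : IsDiscreteValuationRing O'')
      (_ : IsAdicComplete (IsLocalRing.maximalIdeal O'') O'')
      (_ : Finite (IsLocalRing.ResidueField O''))
      (_ : CharZero O'') (_ : Algebra O' O'') (_ : Module.Finite O' O'')
      (_ : IsLocalHom (algebraMap O' O'')),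
      Function.Injective (algebraMap O' O'') ∧
      ∃ ρ : GaloisRepAdic O'',
        (∀ (ℓ : ℕ) (hℓ : ℓ.Prime) (hℓM : ¬ ℓ ∣ M) (hℓS : ℓ ∉ (↑S : Set ℕ)),
          ∀ A : ValuationSubring (AlgebraicClosure ℚ), A.LiesOverPrime ℓ →
            ∀ σ : AlgebraicClosure ℚ ≃ₐ[ℚ] AlgebraicClosure ℚ, A.IsFrobeniusAt σ ℓ →
              LinearMap.charpoly (ρ.ρ σ) =
                X ^ 2 - C (algebraMap O' O'' ((iota.comp chig.rangeRestrict)
                  (CuspForm.heckeAlgebra.T hℓ hℓM hℓS))) * X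
                  + C ((ℓ : O''))) ∧
        (∀ q : ℕ, q.Prime → q ≠ lam → M.factorization q = 2 → ¬ ρ.IsUnipotentOnInertiaAt q)


/-! ### Integer-valued subrings of `ℂ` -/

/-- The integer represented by an element of the image of `ℤ` in `ℂ`. -/
noncomputable def intPart : (Int.castRingHom ℂ).range →+* ℤ :=
  ((RingEquiv.ofBijective (Int.castRingHom ℂ).rangeRestrict
    ⟨fun _ _ h => Int.cast_injective (α := ℂ) (congrArg Subtype.val h),
      (Int.castRingHom ℂ).rangeRestrict_surjective⟩).symm : (Int.castRingHom ℂ).range →+* ℤ)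

theorem intPart_eq (x : (Int.castRingHom ℂ).range) (n : ℤ) (h : (x : ℂ) = (n : ℂ)) :
    intPart x = n := by
  have hx : x = (Int.castRingHom ℂ).rangeRestrict n := Subtype.ext (by rw [h]; rfl)
  rw [hx]
  exact RingEquiv.symm_apply_apply _ n

/-- For a subring `R` of `ℂ` consisting of integers and any ring `O`, the canonical
homomorphism `R →+* O`. -/
noncomputable def intIota (R : Subring ℂ) (hR : R ≤ (Int.castRingHom ℂ).range) (O : Type)
    [Ring O] : R →+* O :=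
  (Int.castRingHom O).comp (intPart.comp (Subring.inclusion hR))

theorem intIota_eq (R : Subring ℂ) (hR : R ≤ (Int.castRingHom ℂ).range) (O : Type)
    [Ring O] (x : R) (n : ℤ) (h : (x : ℂ) = (n : ℂ)) : intIota R hR O x = (n : O) := by
  unfold intIota
  rw [RingHom.comp_apply, RingHom.comp_apply, intPart_eq _ n (by simpa using h)]
  rfl

/-! ### `ℤ_[lam]` as coefficient ring -/

instance instFiniteResidueFieldPadicInt (p : ℕ) [Fact p.Prime] :
    Finite (IsLocalRing.ResidueField ℤ_[p]) :=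
  Finite.of_equiv (ZMod p) (PadicInt.residueField (p := p)).symm.toEquiv

theorem padicInt_natCast_mem_maximalIdeal (p : ℕ) [Fact p.Prime] :
    ((p : ℕ) : ℤ_[p]) ∈ IsLocalRing.maximalIdeal ℤ_[p] := by
  rw [PadicInt.maximalIdeal_eq_span_p]
  exact Ideal.mem_span_singleton_self _

section ModSide

variable {M : ℕ} [NeZero M] {g : CuspForm (Gamma0 M) 2}

/-- The eigencharacter of a normalised eigenform with integral good eigenvalues has range
inside `ℤ`. -/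
theorem eigenChar_range_le_int (S : Set ℕ) (hMS : ∀ q : ℕ, q.Prime → q ∣ M → q ∈ S)
    (hg : g.IsNormalizedEigenform) (a : ℕ → ℤ)
    (ha : ∀ ℓ : ℕ, ℓ.Prime → ¬ ℓ ∣ M → ℓ ∉ S → qCoeff g ℓ = (a ℓ : ℂ)) :
    (eigenChar S hMS g hg).range ≤ (Int.castRingHom ℂ).range :=
  eigenChar_range_le _ S hMS g hg (fun ℓ hℓ hℓM hℓS => ⟨a ℓ, (ha ℓ hℓ hℓM hℓS).symm⟩)

/-- **Modular side of S58, step S35.** For a newform `g` of level `M` whose good eigenvalues
outside `S` are the integers `a ℓ`, the frozen statement S35 with coefficient ring `ℤ_[lam]`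
gives a `λ`-adic representation with Frobenius characteristic polynomials
`X² - a_ℓ X + ℓ` for `ℓ ∉ S` and `X² ∓ (q+1) X + q` at the primes `q ≠ lam` exactly dividing
`M`. -/
theorem modSide35 (h35 : S35Statement) (hg : g.IsNewform)
    (lam : ℕ) [Fact lam.Prime] (S : Finset ℕ) (hlamS : lam ∈ S)
    (hMS : ∀ q : ℕ, q.Prime → q ∣ M → q ∈ S) (a : ℕ → ℤ)
    (ha : ∀ ℓ : ℕ, ℓ.Prime → ¬ ℓ ∣ M → ℓ ∉ (↑S : Set ℕ) → qCoeff g ℓ = (a ℓ : ℂ)) :
    ∃ (O'' : Type) (_ : CommRing O'') (_ : IsDomain O'') (_ : IsDiscreteValuationRing O'')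
      (_ : IsAdicComplete (IsLocalRing.maximalIdeal O'') O'')
      (_ : Finite (IsLocalRing.ResidueField O''))
      (_ : CharZero O'') (_ : Algebra ℤ_[lam] O'') (_ : Module.Finite ℤ_[lam] O'')
      (_ : IsLocalHom (algebraMap ℤ_[lam] O'')),
      Function.Injective (algebraMap ℤ_[lam] O'') ∧
      (lam : O'') ∈ IsLocalRing.maximalIdeal O'' ∧
      ∃ ρ : GaloisRepAdic O'',
        (∀ ℓ : ℕ, ℓ.Prime → ¬ ℓ ∣ M → ℓ ∉ (↑S : Set ℕ) →
          ∀ A : ValuationSubring (AlgebraicClosure ℚ), A.LiesOverPrime ℓ →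
            ∀ σ : AlgebraicClosure ℚ ≃ₐ[ℚ] AlgebraicClosure ℚ, A.IsFrobeniusAt σ ℓ →
              LinearMap.charpoly (ρ.ρ σ) =
                X ^ 2 - C ((a ℓ : ℤ) : O'') * X + C ((ℓ : O''))) ∧
        (∀ q : ℕ, q.Prime → q ≠ lam → q ∣ M → ¬ q ^ 2 ∣ M →
          ∀ A : ValuationSubring (AlgebraicClosure ℚ), A.LiesOverPrime q →
            ∀ σ : AlgebraicClosure ℚ ≃ₐ[ℚ] AlgebraicClosure ℚ, A.IsFrobeniusAt σ q →
              LinearMap.charpoly (ρ.ρ σ) = X ^ 2 - C ((q : O'') + 1) * X + C ((q : O'')) ∨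
              LinearMap.charpoly (ρ.ρ σ) = X ^ 2 + C ((q : O'') + 1) * X + C ((q : O''))) := by
  have hMS' : ∀ q : ℕ, q.Prime → q ∣ M → q ∈ (↑S : Set ℕ) := fun q hq hqM =>
    Finset.mem_coe.mpr (hMS q hq hqM)
  set chig := eigenChar (↑S : Set ℕ) hMS' g hg.1 with hchig_def
  have hrange : chig.range ≤ (Int.castRingHom ℂ).range :=
    eigenChar_range_le_int (↑S : Set ℕ) hMS' hg.1 a ha
  obtain ⟨O'', i1, i2, i3, i4, i5, i6, i7, i8, i9, hinj, ρ, hρ, hq⟩ :=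
    h35 hg lam S ℤ_[lam] (padicInt_natCast_mem_maximalIdeal lam) chig
      (fun ℓ hℓ hℓM hℓS => eigenChar_T (↑S : Set ℕ) hMS' g hg.1 ℓ hℓ hℓM hℓS)
      (intIota chig.range hrange ℤ_[lam]) hlamS hMS
  refine ⟨O'', i1, i2, i3, i4, i5, i6, i7, i8, i9, hinj, ?_, ρ, ?_, hq⟩
  · have h1 : ((lam : ℕ) : O'') = algebraMap ℤ_[lam] O'' ((lam : ℕ) : ℤ_[lam]) :=
      (map_natCast (algebraMap ℤ_[lam] O'') lam).symm
    rw [h1]
    exact map_nonunit (algebraMap ℤ_[lam] O'') _ (padicInt_natCast_mem_maximalIdeal lam)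
  · intro ℓ hℓ hℓM hℓS A hA σ hσ
    rw [hρ ℓ hℓ hℓM hℓS A hA σ hσ]
    have h2 : (intIota chig.range hrange ℤ_[lam]).comp chig.rangeRestrict
        (CuspForm.heckeAlgebra.T hℓ hℓM hℓS) = ((a ℓ : ℤ) : ℤ_[lam]) := by
      rw [RingHom.comp_apply]
      apply intIota_eq
      rw [RingHom.coe_rangeRestrict, hchig_def,
        eigenChar_T (↑S : Set ℕ) hMS' g hg.1 ℓ hℓ hℓM hℓS]
      exact ha ℓ hℓ hℓM hℓS
    rw [h2, map_intCast]

/-- The value of the canonical `iota` on `T_ℓ`. -/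
theorem intIota_eigenChar_T (hg : g.IsNormalizedEigenform)
    (lam : ℕ) [Fact lam.Prime] (S : Finset ℕ)
    (hMS' : ∀ q : ℕ, q.Prime → q ∣ M → q ∈ (↑S : Set ℕ)) (a : ℕ → ℤ)
    (ha : ∀ ℓ : ℕ, ℓ.Prime → ¬ ℓ ∣ M → ℓ ∉ (↑S : Set ℕ) → qCoeff g ℓ = (a ℓ : ℂ))
    (hrange : (eigenChar (↑S : Set ℕ) hMS' g hg).range ≤ (Int.castRingHom ℂ).range)
    (ℓ : ℕ) (hℓ : ℓ.Prime) (hℓM : ¬ ℓ ∣ M) (hℓS : ℓ ∉ (↑S : Set ℕ)) :
    (intIota (eigenChar (↑S : Set ℕ) hMS' g hg).range hrange ℤ_[lam]).comp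
        (eigenChar (↑S : Set ℕ) hMS' g hg).rangeRestrict
        (CuspForm.heckeAlgebra.T hℓ hℓM hℓS) = ((a ℓ : ℤ) : ℤ_[lam]) := by
  rw [RingHom.comp_apply]
  apply intIota_eq
  rw [RingHom.coe_rangeRestrict, eigenChar_T (↑S : Set ℕ) hMS' g hg ℓ hℓ hℓM hℓS]
  exact ha ℓ hℓ hℓM hℓS

/-- **Modular side of S58, step S36.** Same as `modSide35` for the frozen statement S36
(Carayol): if every `λ`-adic representation with Frobenius characteristic polynomials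
`X² - a_ℓ X + ℓ` has absolutely irreducible odd reduction, some such representation is not
unipotent on inertia at any prime `q ≠ lam` with `q² ∥ M`. -/
theorem modSide36 (h36 : S36Statement) (hg : g.IsNewform)
    (lam : ℕ) [Fact lam.Prime] (hlam2 : lam ≠ 2) (S : Finset ℕ) (hlamS : lam ∈ S)
    (hMS : ∀ q : ℕ, q.Prime → q ∣ M → q ∈ S) (a : ℕ → ℤ)
    (ha : ∀ ℓ : ℕ, ℓ.Prime → ¬ ℓ ∣ M → ℓ ∉ (↑S : Set ℕ) → qCoeff g ℓ = (a ℓ : ℂ))
    (hres : ∀ (O'' : Type) [CommRing O''] [IsDomain O''] [IsDiscreteValuationRing O'']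
      [IsAdicComplete (IsLocalRing.maximalIdeal O'') O'']
      [Finite (IsLocalRing.ResidueField O'')] [CharZero O'']
      [Algebra ℤ_[lam] O''] [Module.Finite ℤ_[lam] O''] [IsLocalHom (algebraMap ℤ_[lam] O'')],
      Function.Injective (algebraMap ℤ_[lam] O'') →
      (lam : O'') ∈ IsLocalRing.maximalIdeal O'' → ∀ (ρ : GaloisRepAdic O''),
      (∀ ℓ : ℕ, ℓ.Prime → ℓ ≠ lam → ¬ ℓ ∣ M → ℓ ∉ (↑S : Set ℕ) →
        ∀ A : ValuationSubring (AlgebraicClosure ℚ), A.LiesOverPrime ℓ →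
          ∀ σ : AlgebraicClosure ℚ ≃ₐ[ℚ] AlgebraicClosure ℚ, A.IsFrobeniusAt σ ℓ →
            LinearMap.charpoly (ρ.ρ σ) =
              X ^ 2 - C ((a ℓ : ℤ) : O'') * X + C ((ℓ : O'')))
      → ρ.residual.IsAbsolutelyIrreducible ∧ ρ.residual.IsOdd) :
    ∃ (O'' : Type) (_ : CommRing O'') (_ : IsDomain O'') (_ : IsDiscreteValuationRing O'')
      (_ : IsAdicComplete (IsLocalRing.maximalIdeal O'') O'')
      (_ : Finite (IsLocalRing.ResidueField O''))
      (_ : CharZero O'') (_ : Algebra ℤ_[lam] O'') (_ : Module.Finite ℤ_[lam] O'')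
      (_ : IsLocalHom (algebraMap ℤ_[lam] O'')),
      Function.Injective (algebraMap ℤ_[lam] O'') ∧
      (lam : O'') ∈ IsLocalRing.maximalIdeal O'' ∧
      ∃ ρ : GaloisRepAdic O'',
        (∀ ℓ : ℕ, ℓ.Prime → ¬ ℓ ∣ M → ℓ ∉ (↑S : Set ℕ) →
          ∀ A : ValuationSubring (AlgebraicClosure ℚ), A.LiesOverPrime ℓ →
            ∀ σ : AlgebraicClosure ℚ ≃ₐ[ℚ] AlgebraicClosure ℚ, A.IsFrobeniusAt σ ℓ →
              LinearMap.charpoly (ρ.ρ σ) =
                X ^ 2 - C ((a ℓ : ℤ) : O'') * X + C ((ℓ : O''))) ∧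
        (∀ q : ℕ, q.Prime → q ≠ lam → M.factorization q = 2 →
          ¬ ρ.IsUnipotentOnInertiaAt q) := by
  have hMS' : ∀ q : ℕ, q.Prime → q ∣ M → q ∈ (↑S : Set ℕ) := fun q hq hqM =>
    Finset.mem_coe.mpr (hMS q hq hqM)
  have hrange : (eigenChar (↑S : Set ℕ) hMS' g hg.1).range ≤ (Int.castRingHom ℂ).range :=
    eigenChar_range_le_int (↑S : Set ℕ) hMS' hg.1 a ha
  have hlamO : ∀ (O'' : Type) [CommRing O''] [IsLocalRing O''] [Algebra ℤ_[lam] O'']
      [IsLocalHom (algebraMap ℤ_[lam] O'')], (lam : O'') ∈ IsLocalRing.maximalIdeal O'' := by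
    intro O'' _ _ _ _
    have h1 : ((lam : ℕ) : O'') = algebraMap ℤ_[lam] O'' ((lam : ℕ) : ℤ_[lam]) :=
      (map_natCast (algebraMap ℤ_[lam] O'') lam).symm
    rw [h1]
    exact map_nonunit (algebraMap ℤ_[lam] O'') _ (padicInt_natCast_mem_maximalIdeal lam)
  obtain ⟨O'', i1, i2, i3, i4, i5, i6, i7, i8, i9, hinj, ρ, hρ, hq⟩ :=
    h36 hg lam S ℤ_[lam] (padicInt_natCast_mem_maximalIdeal lam) hlam2
      (eigenChar (↑S : Set ℕ) hMS' g hg.1)
      (fun ℓ hℓ hℓM hℓS => eigenChar_T (↑S : Set ℕ) hMS' g hg.1 ℓ hℓ hℓM hℓS)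
      (intIota (eigenChar (↑S : Set ℕ) hMS' g hg.1).range hrange ℤ_[lam]) hlamS hMS
      (by
        intro O'' _ _ _ _ _ _ _ _ _ hinj ρ hρ
        refine hres O'' hinj (hlamO O'') ρ ?_
        intro ℓ hℓ hℓlam hℓM hℓS A hA σ hσ
        rw [hρ ℓ hℓ hℓlam hℓM hℓS A hA σ hσ,
          intIota_eigenChar_T hg.1 lam S hMS' a ha hrange ℓ hℓ hℓM hℓS, map_intCast])
  refine ⟨O'', i1, i2, i3, i4, i5, i6, i7, i8, i9, hinj, hlamO O'', ρ, ?_, hq⟩
  intro ℓ hℓ hℓM hℓS A hA σ hσ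
  rw [hρ ℓ hℓ hℓM hℓS A hA σ hσ,
    intIota_eigenChar_T hg.1 lam S hMS' a ha hrange ℓ hℓ hℓM hℓS, map_intCast]

end ModSide

end Fermat.Agent.H28.S58
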