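import Mathlib
import Fermat.Agent.H28.S58.ModSide
import Fermat.Agent.H28.S58.SchurHensel

/-!
# S58 glue, modular side (helper28): reading off ONE possibly non-integral eigenvalue

`modSide35_at` : let `g` be a newform of level `M` whose eigenvalues `a_ℓ(g)` are the integers
`a ℓ` for all primes `ℓ ∉ S₀` (`S₀ ⊇ primes of M`), and let `ℓ₀ ∤ M` be one further prime
(typically `ℓ₀ ∈ S₀`).  Then for arbitrarily large primes `lam` the frozen statement S35 gives a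
`lam`-adic representation `ρ` with Frobenius characteristic polynomials `X² - a_ℓ X + ℓ`
(`ℓ ∉ S₀`, `ℓ ≠ lam`) and `X² - x X + ℓ₀` at `ℓ₀`, where `x` determines `a_{ℓ₀}(g)`: if `x` is a
rational integer `n` then `a_{ℓ₀}(g) = n`.
-/

set_option autoImplicit false

open CongruenceSubgroup ModularFormClass Polynomial

namespace Fermat.Agent.H28.S58

variable {M : ℕ} [NeZero M] {g : CuspForm (Gamma0 M) 2}

theorem modSide35_at (h35 : S35Statement) (hg : g.IsNewform) (S₀ : Finset ℕ)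
    (hMS : ∀ q : ℕ, q.Prime → q ∣ M → q ∈ S₀)
    (ℓ₀ : ℕ) (hℓ₀ : ℓ₀.Prime) (hℓ₀M : ¬ ℓ₀ ∣ M) (a : ℕ → ℤ)
    (ha : ∀ ℓ : ℕ, ℓ.Prime → ¬ ℓ ∣ M → ℓ ∉ S₀ → qCoeff g ℓ = (a ℓ : ℂ)) (B : ℕ) :
    ∃ (lam : ℕ) (_ : Fact lam.Prime), B < lam ∧ lam ≠ ℓ₀ ∧
    ∃ (O'' : Type) (_ : CommRing O'') (_ : IsDomain O'') (_ : IsDiscreteValuationRing O'')
      (_ : IsAdicComplete (IsLocalRing.maximalIdeal O'') O'')
      (_ : Finite (IsLocalRing.ResidueField O''))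
      (_ : CharZero O'') (_ : Algebra ℤ_[lam] O'') (_ : Module.Finite ℤ_[lam] O'')
      (_ : IsLocalHom (algebraMap ℤ_[lam] O'')),
      Function.Injective (algebraMap ℤ_[lam] O'') ∧
      (lam : O'') ∈ IsLocalRing.maximalIdeal O'' ∧
      ∃ (ρ : GaloisRepAdic O'') (x : O''),
        (∀ ℓ : ℕ, ℓ.Prime → ¬ ℓ ∣ M → ℓ ∉ S₀ → ℓ ≠ lam →
          ∀ A : ValuationSubring (AlgebraicClosure ℚ), A.LiesOverPrime ℓ →
            ∀ σ : AlgebraicClosure ℚ ≃ₐ[ℚ] AlgebraicClosure ℚ, A.IsFrobeniusAt σ ℓ →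
              LinearMap.charpoly (ρ.ρ σ) =
                X ^ 2 - C ((a ℓ : ℤ) : O'') * X + C ((ℓ : O''))) ∧
        (∀ A : ValuationSubring (AlgebraicClosure ℚ), A.LiesOverPrime ℓ₀ →
            ∀ σ : AlgebraicClosure ℚ ≃ₐ[ℚ] AlgebraicClosure ℚ, A.IsFrobeniusAt σ ℓ₀ →
              LinearMap.charpoly (ρ.ρ σ) = X ^ 2 - C x * X + C ((ℓ₀ : O''))) ∧
        (∀ n : ℤ, x = ((n : ℤ) : O'') → qCoeff g ℓ₀ = (n : ℂ)) ∧
        (∀ q : ℕ, q.Prime → q ≠ lam → q ∣ M → ¬ q ^ 2 ∣ M →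
          ∀ A : ValuationSubring (AlgebraicClosure ℚ), A.LiesOverPrime q →
            ∀ σ : AlgebraicClosure ℚ ≃ₐ[ℚ] AlgebraicClosure ℚ, A.IsFrobeniusAt σ q →
              LinearMap.charpoly (ρ.ρ σ) = X ^ 2 - C ((q : O'') + 1) * X + C ((q : O'')) ∨
              LinearMap.charpoly (ρ.ρ σ) = X ^ 2 + C ((q : O'') + 1) * X + C ((q : O''))) := by
  set α : ℂ := qCoeff g ℓ₀ with hα_def
  have hα : IsIntegral ℤ α := Fermat.Agent.H50.isIntegral_qCoeff_prime g hg.1 hℓ₀ hℓ₀M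
  obtain ⟨lam, hlam, hBl, hz⟩ := exists_prime_gt_padic_root α hα (max B ℓ₀)
  have : Fact lam.Prime := ⟨hlam⟩
  obtain ⟨z, hz⟩ := hz
  have hlamB : B < lam := lt_of_le_of_lt (le_max_left _ _) hBl
  have hlamℓ₀ : lam ≠ ℓ₀ := (lt_of_le_of_lt (le_max_right _ _) hBl).ne'
  refine ⟨lam, ⟨hlam⟩, hlamB, hlamℓ₀, ?_⟩
  -- the set `S`
  set S : Finset ℕ := insert lam (S₀.erase ℓ₀) with hS
  have hlamS : lam ∈ S := Finset.mem_insert_self _ _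
  have hMS1 : ∀ q : ℕ, q.Prime → q ∣ M → q ∈ S := by
    intro q hq hqM
    refine Finset.mem_insert_of_mem (Finset.mem_erase.mpr ⟨?_, hMS q hq hqM⟩)
    rintro rfl
    exact hℓ₀M hqM
  have hMS' : ∀ q : ℕ, q.Prime → q ∣ M → q ∈ (↑S : Set ℕ) := fun q hq hqM =>
    Finset.mem_coe.mpr (hMS1 q hq hqM)
  have hnotS : ∀ ℓ : ℕ, ℓ ∉ (↑S : Set ℕ) → ℓ ≠ lam ∧ (ℓ = ℓ₀ ∨ ℓ ∉ S₀) := by
    intro ℓ hℓ
    rw [Finset.mem_coe, hS, Finset.mem_insert, Finset.mem_erase] at hℓ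
    push Not at hℓ
    refine ⟨hℓ.1, ?_⟩
    by_cases h : ℓ = ℓ₀
    · exact Or.inl h
    · exact Or.inr (hℓ.2 h)
  have hSnot : ∀ ℓ : ℕ, ℓ ≠ lam → (ℓ = ℓ₀ ∨ ℓ ∉ S₀) → ℓ ∉ (↑S : Set ℕ) := by
    intro ℓ h1 h2 h3
    rw [Finset.mem_coe, hS, Finset.mem_insert, Finset.mem_erase] at h3
    rcases h3 with h3 | ⟨h3, h4⟩
    · exact h1 h3
    · rcases h2 with h2 | h2
      · exact h3 h2
      · exact h2 h4
  -- the eigencharacter and its range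
  set chig := eigenChar (↑S : Set ℕ) hMS' g hg.1 with hchig_def
  have hle : ∀ x ∈ chig.range, x ∈ Algebra.adjoin ℤ ({α} : Set ℂ) := by
    have h := eigenChar_range_le (Algebra.adjoin ℤ ({α} : Set ℂ)).toSubring (↑S : Set ℕ) hMS'
      g hg.1 (by
        intro ℓ hℓ hℓM hℓS
        rcases (hnotS ℓ hℓS).2 with h | h
        · rw [h]
          exact Algebra.self_mem_adjoin_singleton ℤ α
        · rw [ha ℓ hℓ hℓM h]
          exact intCast_mem (Algebra.adjoin ℤ ({α} : Set ℂ)) (a ℓ))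
    exact fun x hx => h hx
  set φ := adjoinToPadic α hα lam z hz with hφ
  set iota : chig.range →+* ℤ_[lam] :=
    (φ : Algebra.adjoin ℤ ({α} : Set ℂ) →+* ℤ_[lam]).comp
      (RingHom.codRestrict chig.range.subtype (Algebra.adjoin ℤ ({α} : Set ℂ))
        (fun x => hle x.1 x.2)) with hiota
  have hiota_int : ∀ (ℓ : ℕ) (hℓ : ℓ.Prime) (hℓM : ¬ ℓ ∣ M) (hℓS : ℓ ∉ (↑S : Set ℕ)),
      ℓ ∉ S₀ → (iota.comp chig.rangeRestrict) (CuspForm.heckeAlgebra.T hℓ hℓM hℓS) =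
        ((a ℓ : ℤ) : ℤ_[lam]) := by
    intro ℓ hℓ hℓM hℓS hℓS₀
    have h1 : (RingHom.codRestrict chig.range.subtype (Algebra.adjoin ℤ ({α} : Set ℂ))
        (fun x => hle x.1 x.2)) (chig.rangeRestrict (CuspForm.heckeAlgebra.T hℓ hℓM hℓS)) =
        ((a ℓ : ℤ) : Algebra.adjoin ℤ ({α} : Set ℂ)) := by
      apply Subtype.ext
      show chig (CuspForm.heckeAlgebra.T hℓ hℓM hℓS) = _
      rw [hchig_def, eigenChar_T (↑S : Set ℕ) hMS' g hg.1 ℓ hℓ hℓM hℓS, ha ℓ hℓ hℓM hℓS₀]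
      simp
    rw [RingHom.comp_apply, hiota, RingHom.comp_apply, h1]
    exact map_intCast φ (a ℓ)
  have hiota_ℓ₀ : ∀ (hℓS : ℓ₀ ∉ (↑S : Set ℕ)),
      (iota.comp chig.rangeRestrict) (CuspForm.heckeAlgebra.T hℓ₀ hℓ₀M hℓS) = z := by
    intro hℓS
    have h1 : (RingHom.codRestrict chig.range.subtype (Algebra.adjoin ℤ ({α} : Set ℂ))
        (fun x => hle x.1 x.2)) (chig.rangeRestrict (CuspForm.heckeAlgebra.T hℓ₀ hℓ₀M hℓS)) =
        ⟨α, Algebra.self_mem_adjoin_singleton ℤ α⟩ := by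
      apply Subtype.ext
      show chig (CuspForm.heckeAlgebra.T hℓ₀ hℓ₀M hℓS) = _
      rw [hchig_def, eigenChar_T (↑S : Set ℕ) hMS' g hg.1 ℓ₀ hℓ₀ hℓ₀M hℓS]
    rw [RingHom.comp_apply, hiota, RingHom.comp_apply, h1]
    exact adjoinToPadic_self α hα lam z hz
  obtain ⟨O'', i1, i2, i3, i4, i5, i6, i7, i8, i9, hinj, ρ, hρ, hq⟩ :=
    h35 hg lam S ℤ_[lam] (padicInt_natCast_mem_maximalIdeal lam) chig
      (fun ℓ hℓ hℓM hℓS => eigenChar_T (↑S : Set ℕ) hMS' g hg.1 ℓ hℓ hℓM hℓS)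
      iota hlamS hMS1
  refine ⟨O'', i1, i2, i3, i4, i5, i6, i7, i8, i9, hinj, ?_, ρ, algebraMap ℤ_[lam] O'' z,
    ?_, ?_, ?_, hq⟩
  · have h1 : ((lam : ℕ) : O'') = algebraMap ℤ_[lam] O'' ((lam : ℕ) : ℤ_[lam]) :=
      (map_natCast (algebraMap ℤ_[lam] O'') lam).symm
    rw [h1]
    exact map_nonunit (algebraMap ℤ_[lam] O'') _ (padicInt_natCast_mem_maximalIdeal lam)
  · intro ℓ hℓ hℓM hℓS₀ hℓlam A hA σ hσ
    have hℓS : ℓ ∉ (↑S : Set ℕ) := hSnot ℓ hℓlam (Or.inr hℓS₀)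
    rw [hρ ℓ hℓ hℓM hℓS A hA σ hσ, hiota_int ℓ hℓ hℓM hℓS hℓS₀, map_intCast]
  · intro A hA σ hσ
    have hℓS : ℓ₀ ∉ (↑S : Set ℕ) := hSnot ℓ₀ hlamℓ₀.symm (Or.inl rfl)
    rw [hρ ℓ₀ hℓ₀ hℓ₀M hℓS A hA σ hσ, hiota_ℓ₀ hℓS]
  · intro n hn
    have h1 : z = ((n : ℤ) : ℤ_[lam]) := by
      apply hinj
      rw [hn, map_intCast]
    rw [h1] at hz
    exact eq_intCast_of_padic_root α hα lam n hz

end Fermat.Agent.H28.S58
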